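import Mathlib
import Fermat.Prelude.Def_GaloisRep_Residual

/-!
# P-ES / ES-G : interfaces for the assemblies S29, S42 (helper28)

Three `Prop`s.  The assemblies `S29`, `S42` are proved from them by pure algebra
(`Fermat.Agent.H28.ES.*`).

* `ChebotarevStatement`  (target of P-CHEB): every element of a finite Galois group over `ℚ`
  is the restriction of a Frobenius element (in the prelude sense `IsFrobeniusAt`) at some
  prime outside any given finite set.
* `EichlerShimuraSpaceStatement` (target of P-ES upstream, ES-A..ES-E): for every normalised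
  eigenform `g` of level `N` and every surjection `φ : ℤ̄ → k` onto a field of characteristic
  `p` there is a NONZERO finite-dimensional `k`-representation `W` of `G_ℚ`, of finite level,
  unramified outside `N p`, on which every Frobenius at `ℓ ∤ N p` satisfies
  `σ² - φ(a_ℓ) σ + ℓ = 0`.  (Typically: the `𝔪`-torsion of `J₀(N)`, or the span of the Galois
  orbit of one Hecke eigenvector in `J₀(N)[p] ⊗ k`.)  NO dimension statement, NO Weil pairing,
  NO multiplicity one is required.
* `QuadraticRepStatement` (pure algebra, ES-G1): a nonzero finite-dimensional representation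
  over an algebraically closed field on which every group element satisfies
  `g² - t(g) g + ε(g) = 0` (`ε` a character) contains/produces a two-dimensional
  representation with characteristic polynomials `X² - t(g) X + ε(g)`.
-/

set_option autoImplicit false

namespace Fermat.Agent.H28

open Polynomial

/-- The absolute Galois group of `ℚ` in the prelude's model. -/
abbrev GQ : Type := AlgebraicClosure ℚ ≃ₐ[ℚ] AlgebraicClosure ℚ

/-- **Chebotarev, existence form** (target of P-CHEB). -/
def ChebotarevStatement : Prop :=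
  ∀ (L : IntermediateField ℚ (AlgebraicClosure ℚ)), FiniteDimensional ℚ L →
    ∀ (σ : GQ) (B : Finset ℕ),
      ∃ (ℓ : ℕ) (A : ValuationSubring (AlgebraicClosure ℚ)) (τ : GQ),
        ℓ.Prime ∧ ℓ ∉ B ∧ A.LiesOverPrime ℓ ∧ A.IsFrobeniusAt τ ℓ ∧ ∀ x ∈ L, τ x = σ x

/-- **The Eichler–Shimura space** of a normalised eigenform modulo a prime of `ℤ̄`
(target of the upstream blocks of P-ES). -/
def EichlerShimuraSpaceStatement : Prop :=
  ∀ (N : ℕ) [NeZero N] (g : CuspForm (CongruenceSubgroup.Gamma0 N) 2),
    g.IsNormalizedEigenform →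
    ∀ (p : ℕ), p.Prime → ∀ (k : Type) [Field k] [CharP k p]
      (φ : integralClosure ℤ ℂ →+* k), Function.Surjective φ →
      ∃ (W : Type) (_ : AddCommGroup W) (_ : Module k W) (ρ : GQ →* Module.End k W),
        Module.Finite k W ∧ Nontrivial W ∧ GaloisFactorsThroughFiniteLevel ρ ∧
        (∀ ℓ : ℕ, ℓ.Prime → ¬ ℓ ∣ N * p →
          ∀ A : ValuationSubring (AlgebraicClosure ℚ), A.LiesOverPrime ℓ →
            ∀ σ ∈ A.inertiaSubgroupIn ℚ, ρ σ = 1) ∧
        (∀ ℓ : ℕ, ℓ.Prime → ¬ ℓ ∣ N * p →
          ∀ A : ValuationSubring (AlgebraicClosure ℚ), A.LiesOverPrime ℓ →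
            ∀ σ : GQ, A.IsFrobeniusAt σ ℓ →
              ∃ a : integralClosure ℤ ℂ, (a : ℂ) = ModularFormClass.qCoeff g ℓ ∧
                ρ σ * ρ σ - φ a • ρ σ + (ℓ : k) • (1 : Module.End k W) = 0)

/-- **Pure algebra (ES-G1)**: from quadratic relations to a two-dimensional representation. -/
def QuadraticRepStatement : Prop :=
  ∀ (F : Type) [Field F] [IsAlgClosed F] (G : Type) [Group G]
    (W : Type) [AddCommGroup W] [Module F W] [Module.Finite F W] [Nontrivial W]
    (ρ : G →* Module.End F W) (ε : G →* Fˣ) (t : G → F),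
    (∀ g : G, ρ g * ρ g - t g • ρ g + ((ε g : Fˣ) : F) • (1 : Module.End F W) = 0) →
    ((2 : F) ≠ 0 → ∃ c : G, c * c = 1 ∧ ε c = -1) →
    ∃ (V : Type) (_ : AddCommGroup V) (_ : Module F V) (_ : Module.Finite F V)
      (ρ₂ : G →* Module.End F V),
      Module.finrank F V = 2 ∧
      (∀ g : G, LinearMap.charpoly (ρ₂ g) = X ^ 2 - C (t g) * X + C ((ε g : Fˣ) : F)) ∧
      (∀ g : G, ρ g = 1 → ε g = 1 → ρ₂ g = 1)

end Fermat.Agent.H28
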