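import Mathlib
import Fermat.Prelude.Def_ModularCurve_HeckeModule
import Fermat.Prelude.Def_GaloisRep_Residual
import Fermat.Agent.H28.ES.Interface

/-!
# P-ES / ES-G6 : the contract between the `J₀(N)`-side and the assemblies (helper28)

`EichlerShimuraSpaceStatement` (the only arithmetic input of S29 / S42) is derived in
`Fermat.Agent.H28.ES.SpaceGlue` from

* `Fermat.Agent.H36.ReductionDataStatement N p` (ES-E / ES-D: reduction data at good places;
  stated with the prelude operator `heckeOperatorBar N ℓ`, NO commutativity of Hecke operators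
  and NO `HeckeAlg`-module structure involved),

and the four statements of this file about the prelude object `ModularCurve.JZero N`:

* `JGalHeckeStatement`   : `T_ℓ` (`ℓ ∤ N`) commutes with the Galois action on `p`-torsion points;
* `JSmoothStatement`     : every torsion point of `JZero N` has an open stabiliser in `G_ℚ`;
* `JTorsFiniteStatement` : `J₀(N)(ℚ̄)[p]` is finite;
* `JEigenStatement`      : for every normalised eigenform `g` of level `N`, prime `p` and
  `φ : ℤ̄ → k` (`char k = p`) there is a NONZERO vector `w ∈ k ⊗_ℤ J₀(N)(ℚ̄)[p]` with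
  `(1 ⊗ T_ℓ) w = φ(a_ℓ(g)) w` for all primes `ℓ ∤ N p`.
-/

set_option autoImplicit false

namespace Fermat.Agent.H28

open ModularCurve AlgebraicCurve
open scoped TensorProduct

/-- The `p`-torsion subgroup of `J₀(N)(ℚ̄)` (prelude object). -/
noncomputable abbrev JTors (N p : ℕ) : AddSubgroup (JZero N) :=
  Pic0.torsion (AlgebraicClosure ℚ) (modularFunctionFieldBar N) p

theorem heckeOperatorBar_mem_JTors (N p : ℕ) [NeZero N] (ℓ : Nat.Primes) {x : JZero N}
    (hx : x ∈ JTors N p) : heckeOperatorBar N ℓ x ∈ JTors N p := by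
  rw [Pic0.mem_torsion] at hx ⊢
  rw [← map_zsmul, hx, map_zero]

/-- The prelude Hecke operator `T_ℓ` on the `p`-torsion of `J₀(N)(ℚ̄)`, as an additive map. -/
noncomputable def heckeTorsHom (N p : ℕ) [NeZero N] (ℓ : Nat.Primes) :
    JTors N p →+ JTors N p :=
  AddMonoidHom.mk' (fun x => ⟨heckeOperatorBar N ℓ (x : JZero N),
    heckeOperatorBar_mem_JTors N p ℓ x.2⟩) (fun x y => Subtype.ext (by
      show heckeOperatorBar N ℓ ((x + y : JTors N p) : JZero N)
        = heckeOperatorBar N ℓ (x : JZero N) + heckeOperatorBar N ℓ (y : JZero N)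
      rw [AddSubgroup.coe_add, map_add]))

/-- The prelude Hecke operator `T_ℓ` on the `p`-torsion of `J₀(N)(ℚ̄)`. -/
noncomputable def heckeTors (N p : ℕ) [NeZero N] (ℓ : Nat.Primes) :
    Module.End ℤ (JTors N p) :=
  (heckeTorsHom N p ℓ).toIntLinearMap

theorem coe_heckeTors (N p : ℕ) [NeZero N] (ℓ : Nat.Primes) (x : JTors N p) :
    ((heckeTors N p ℓ x : JTors N p) : JZero N) = heckeOperatorBar N ℓ (x : JZero N) := rfl

/-- The Galois action on the `p`-torsion of `J₀(N)(ℚ̄)`, as a `ℤ`-linear map. -/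
noncomputable def galTors (N p : ℕ) (σ : GQ) : Module.End ℤ (JTors N p) :=
  (JZero.torsionGaloisRep N p σ).toAddMonoidHom.toIntLinearMap

theorem coe_galTors (N p : ℕ) (σ : GQ) (x : JTors N p) :
    ((galTors N p σ x : JTors N p) : JZero N) = σ • (x : JZero N) := rfl

/-- `T_ℓ` (`ℓ ∤ N`) commutes with the Galois action on the torsion points of `J₀(N)(ℚ̄)`. -/
def JGalHeckeStatement : Prop :=
  ∀ (N : ℕ) [NeZero N] (ℓ : Nat.Primes), ¬ (ℓ : ℕ) ∣ N → ∀ (σ : GQ) (x : JZero N),
    (∃ m : ℕ, 0 < m ∧ m • x = 0) →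
      heckeOperatorBar N ℓ (σ • x) = σ • heckeOperatorBar N ℓ x

/-- Every torsion point of `J₀(N)(ℚ̄)` is fixed by an open subgroup of `G_ℚ`. -/
def JSmoothStatement : Prop :=
  ∀ (N : ℕ) [NeZero N] (x : JZero N), (∃ m : ℕ, 0 < m ∧ m • x = 0) →
    ∃ L : IntermediateField ℚ (AlgebraicClosure ℚ), FiniteDimensional ℚ L ∧
      ∀ σ : GQ, (∀ y ∈ L, σ y = y) → σ • x = x

/-- `J₀(N)(ℚ̄)[p]` is finite. -/
def JTorsFiniteStatement : Prop :=
  ∀ (N : ℕ) [NeZero N] (p : ℕ), p.Prime → Finite (JTors N p)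

/-- The eigen-system of a normalised eigenform modulo a prime of `ℤ̄` occurs in
`k ⊗ J₀(N)(ℚ̄)[p]` (good primes only). -/
def JEigenStatement : Prop :=
  ∀ (N : ℕ) [NeZero N] (g : CuspForm (CongruenceSubgroup.Gamma0 N) 2),
    g.IsNormalizedEigenform →
    ∀ (p : ℕ), p.Prime → ∀ (k : Type) [Field k] [CharP k p]
      (φ : integralClosure ℤ ℂ →+* k),
      ∃ w : k ⊗[ℤ] (JTors N p), w ≠ 0 ∧
        ∀ ℓ : Nat.Primes, ¬ (ℓ : ℕ) ∣ N * p →
          ∃ a : integralClosure ℤ ℂ, (a : ℂ) = ModularFormClass.qCoeff g ℓ ∧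
            (heckeTors N p ℓ).baseChange k w = φ a • w

end Fermat.Agent.H28
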