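import Mathlib

/-!
# P-ES / ES-G6, abstract part (helper28): the eigenspace representation

Let `G` act on a finite abelian group `T`, let `h i` be endomorphisms of `T` commuting with the
action, and let `w ≠ 0` be a common eigenvector of the `1 ⊗ h i` in `k ⊗_ℤ T` with eigenvalues
`c i`.  Then the common eigenspace `W` is a nonzero finite-dimensional `k`-representation of `G`
on which `h i` acts as `c i`; every relation `ρ₀(g)² - h_i ρ₀(g) + n = 0` on `T` becomes
`ρ(g)² - c_i ρ(g) + n = 0` on `W`.
-/

set_option autoImplicit false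

namespace Fermat.Agent.H28

open scoped TensorProduct

section

variable {G : Type} [Group G] {R : Type} [CommRing R] {T : Type} [AddCommGroup T] [Module R T]
  (k : Type) [Field k] [Algebra R k]
  {ι : Type} (ρ₀ : G →* Module.End R T) (h : ι → Module.End R T) (c : ι → k)

/-- The common eigenspace of the operators `1 ⊗ h i` in `k ⊗ T`. -/
def eigenSub : Submodule k (k ⊗[R] T) :=
  ⨅ i, LinearMap.ker ((h i).baseChange k - c i • LinearMap.id)

variable {k h c}

theorem mem_eigenSub_iff {v : k ⊗[R] T} :
    v ∈ eigenSub k h c ↔ ∀ i, (h i).baseChange k v = c i • v := by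
  simp only [eigenSub, Submodule.mem_iInf, LinearMap.mem_ker, LinearMap.sub_apply,
    LinearMap.smul_apply, LinearMap.id_apply, sub_eq_zero]

variable {ρ₀}

theorem baseChange_mem_eigenSub (hcomm : ∀ i g, h i * ρ₀ g = ρ₀ g * h i) (g : G)
    {v : k ⊗[R] T} (hv : v ∈ eigenSub k h c) : (ρ₀ g).baseChange k v ∈ eigenSub k h c := by
  rw [mem_eigenSub_iff] at hv ⊢
  intro i
  have h1 : (h i).baseChange k ((ρ₀ g).baseChange k v)
      = (ρ₀ g).baseChange k ((h i).baseChange k v) := by
    rw [← LinearMap.comp_apply, ← LinearMap.comp_apply, ← LinearMap.baseChange_comp,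
      ← LinearMap.baseChange_comp]
    have := hcomm i g
    rw [Module.End.mul_eq_comp, Module.End.mul_eq_comp] at this
    rw [this]
  rw [h1, hv i, map_smul]

variable (k ρ₀ h c)

/-- The representation of `G` on the common eigenspace. -/
noncomputable def eigenRep (hcomm : ∀ i g, h i * ρ₀ g = ρ₀ g * h i) :
    G →* Module.End k (eigenSub k h c) where
  toFun g := ((ρ₀ g).baseChange k).restrict fun _ hv => baseChange_mem_eigenSub hcomm g hv
  map_one' := by
    refine LinearMap.ext fun v => Subtype.ext ?_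
    rw [LinearMap.coe_restrict_apply, map_one, Module.End.one_eq_id, LinearMap.baseChange_id]
    rfl
  map_mul' g g' := by
    refine LinearMap.ext fun v => Subtype.ext ?_
    rw [LinearMap.coe_restrict_apply, map_mul, Module.End.mul_eq_comp,
      LinearMap.baseChange_comp]
    rfl

variable {k ρ₀ h c}

@[simp] theorem coe_eigenRep_apply (hcomm : ∀ i g, h i * ρ₀ g = ρ₀ g * h i) (g : G)
    (v : eigenSub k h c) :
    ((eigenRep k ρ₀ h c hcomm g v : eigenSub k h c) : k ⊗[R] T) = (ρ₀ g).baseChange k v := rfl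

/-- **ES-G6, abstract form.** -/
theorem exists_eigenRep [Finite T] (hcomm : ∀ i g, h i * ρ₀ g = ρ₀ g * h i)
    (w : k ⊗[R] T) (hw : w ≠ 0) (hwe : ∀ i, (h i).baseChange k w = c i • w) :
    ∃ (W : Type) (_ : AddCommGroup W) (_ : Module k W) (ρ : G →* Module.End k W),
      Module.Finite k W ∧ Nontrivial W ∧
      (∀ g, ρ₀ g = 1 → ρ g = 1) ∧
      (∀ (g : G) (i : ι) (n : R), ρ₀ g * ρ₀ g - h i * ρ₀ g + n • (1 : Module.End R T) = 0 →
        ρ g * ρ g - c i • ρ g + (algebraMap R k n) • (1 : Module.End k W) = 0) := by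
  have : Module.Finite R T := Module.Finite.of_finite
  have : Module.Finite k (k ⊗[R] T) := inferInstance
  refine ⟨eigenSub k h c, inferInstance, inferInstance, eigenRep k ρ₀ h c hcomm,
    inferInstance, ?_, ?_, ?_⟩
  · exact ⟨⟨⟨w, mem_eigenSub_iff.mpr hwe⟩, 0, fun h0 => hw (congrArg Subtype.val h0)⟩⟩
  · intro g hg
    refine LinearMap.ext fun v => Subtype.ext ?_
    rw [coe_eigenRep_apply, hg, Module.End.one_eq_id, LinearMap.baseChange_id]
    rfl
  · intro g i n hrel
    refine LinearMap.ext fun v => Subtype.ext ?_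
    have hv' : (ρ₀ g).baseChange k (v : k ⊗[R] T) ∈ eigenSub k h c :=
      baseChange_mem_eigenSub hcomm g v.2
    have hb := congrArg (fun f : Module.End R T => f.baseChange k (v : k ⊗[R] T)) hrel
    simp only [Module.End.mul_eq_comp, LinearMap.baseChange_add, LinearMap.baseChange_sub,
      LinearMap.baseChange_comp, LinearMap.baseChange_smul, LinearMap.baseChange_zero,
      Module.End.one_eq_id, LinearMap.baseChange_id, LinearMap.add_apply, LinearMap.sub_apply,
      LinearMap.comp_apply, LinearMap.smul_apply, LinearMap.id_apply, LinearMap.zero_apply]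
      at hb
    rw [mem_eigenSub_iff.mp hv' i] at hb
    simp only [LinearMap.add_apply, LinearMap.sub_apply, LinearMap.smul_apply,
      Module.End.mul_apply, Module.End.one_apply, LinearMap.zero_apply, Submodule.coe_add,
      Submodule.coe_sub, Submodule.coe_smul, coe_eigenRep_apply, Submodule.coe_zero]
    rw [← hb, algebraMap_smul]

end

/-! ## Endomorphisms of a subgroup induced by endomorphisms of the ambient group -/

section Sub

variable {J : Type*} [AddCommGroup J] {T : AddSubgroup J}

theorem end_eq_one_of_red {X : Type*} [AddCommGroup X] (s : Module.End ℤ T) (sJ : J → J)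
    (hs : ∀ x : T, ((s x : T) : J) = sJ x) (red : J →+ X)
    (hinj : ∀ x ∈ T, red x = 0 → x = 0) (hred : ∀ x : J, red (sJ x) = red x) : s = 1 := by
  refine LinearMap.ext fun x => Subtype.ext ?_
  rw [Module.End.one_apply]
  have hmem : ((s x : T) : J) - (x : J) ∈ T := T.sub_mem (s x).2 x.2
  refine sub_eq_zero.mp (hinj _ hmem ?_)
  rw [map_sub, hs, hred, sub_self]

theorem end_comm_of_comm (s t : Module.End ℤ T) (sJ tJ : J → J)
    (hs : ∀ x : T, ((s x : T) : J) = sJ x) (ht : ∀ x : T, ((t x : T) : J) = tJ x)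
    (hc : ∀ x ∈ T, tJ (sJ x) = sJ (tJ x)) : t * s = s * t := by
  refine LinearMap.ext fun x => Subtype.ext ?_
  rw [Module.End.mul_apply, Module.End.mul_apply, ht, hs, hs, ht]
  exact hc _ x.2

theorem end_quadratic_of_red {X : Type*} [AddCommGroup X] (s t : Module.End ℤ T) (sJ tJ : J → J)
    (hs : ∀ x : T, ((s x : T) : J) = sJ x) (ht : ∀ x : T, ((t x : T) : J) = tJ x)
    (red : J →+ X) (hinj : ∀ x ∈ T, red x = 0 → x = 0) (frob ver : X →+ X)
    (hvf : ∀ y, ver (frob y) = y) (n : ℕ)
    (hrs : ∀ x : J, red (sJ x) = frob (red x))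
    (hrt : ∀ x : J, red (tJ x) = frob (red x) + n • ver (red x)) :
    s * s - t * s + (n : ℤ) • (1 : Module.End ℤ T) = 0 := by
  refine LinearMap.ext fun x => Subtype.ext ?_
  rw [LinearMap.zero_apply, AddSubgroup.coe_zero]
  refine hinj _ (SetLike.coe_mem _) ?_
  rw [LinearMap.add_apply, LinearMap.sub_apply, LinearMap.smul_apply, Module.End.mul_apply,
    Module.End.mul_apply, Module.End.one_apply, AddSubgroup.coe_add, AddSubgroup.coe_sub,
    AddSubgroup.coe_zsmul, hs, hs, ht, hs, map_add, map_sub, map_zsmul, hrs, hrs, hrt, hrs, hvf,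
    natCast_zsmul]
  abel

end Sub

end Fermat.Agent.H28
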