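import Mathlib
import Fermat.Agent.H28.ES.Interface

/-!
# P-ES / ES-G : auxiliary interfaces (helper28)

* `CycloCharStatement` (ES-G3): the mod-`p` cyclotomic character of `G_ℚ` and the four
  facts about it used by the assemblies.
* `QuotAlgClosedStatement` (ES-G2): `ℤ̄ ⧸ 𝔪` is an algebraically closed field, and the kernel
  of a ring homomorphism from `ℤ̄` to a field of positive characteristic is maximal.
-/

set_option autoImplicit false

namespace Fermat.Agent.H28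

/-- **ES-G3**: the mod-`p` cyclotomic character. -/
def CycloCharStatement : Prop :=
  ∀ (p : ℕ), p.Prime → ∃ ε : GQ →* (ZMod p)ˣ,
    (∃ L : IntermediateField ℚ (AlgebraicClosure ℚ), FiniteDimensional ℚ L ∧
      ∀ σ : GQ, (∀ x ∈ L, σ x = x) → ε σ = 1) ∧
    (∀ ℓ : ℕ, ℓ.Prime → ℓ ≠ p → ∀ A : ValuationSubring (AlgebraicClosure ℚ),
      A.LiesOverPrime ℓ → ∀ σ : GQ, A.IsFrobeniusAt σ ℓ →
        ((ε σ : (ZMod p)ˣ) : ZMod p) = (ℓ : ZMod p)) ∧
    (∀ ℓ : ℕ, ℓ.Prime → ℓ ≠ p → ∀ A : ValuationSubring (AlgebraicClosure ℚ),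
      A.LiesOverPrime ℓ → ∀ σ ∈ A.inertiaSubgroupIn ℚ, ε σ = 1) ∧
    (p ≠ 2 → ∃ c : GQ, c * c = 1 ∧ ε c = -1)

/-- **ES-G2**: residue fields of `ℤ̄`. -/
def QuotAlgClosedStatement : Prop :=
  (∀ (p : ℕ), p.Prime → ∀ (k : Type) [Field k] [CharP k p]
      (φ : integralClosure ℤ ℂ →+* k), (RingHom.ker φ).IsMaximal) ∧
  (∀ (𝔪 : Ideal (integralClosure ℤ ℂ)) (_h𝔪 : 𝔪.IsMaximal),
      letI := Ideal.Quotient.field 𝔪
      IsAlgClosed (integralClosure ℤ ℂ ⧸ 𝔪))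

end Fermat.Agent.H28
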