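import Mathlib
import Fermat.Agent.H28.ES.Interface
import Fermat.Agent.H28.ES.Interface2
import Fermat.Agent.H64.QuadRelPow
import Fermat.Agent.H53.ES.CycloFrob

/-!
# P-ES / ES-G : final form of the S29 assembly (helper28)

* `quotAlgClosedStatement` : `ℤ̄ ⧸ 𝔪` is algebraically closed; kernels of maps from `ℤ̄` to fields
  of characteristic `p` are maximal (ES-G2).
* `s29_of_frobPow` : the statement of S29 from
  `Fermat.Agent.H64.FrobPowDense` (Frobenius density, weak "power" form) and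
  `Fermat.Agent.H28.EichlerShimuraSpaceStatement` ONLY.  Uses the landed algebra
  `Fermat.Agent.H64.exists_residualGaloisRep_of_frobenius_relations` (helper64) and the
  cyclotomic character facts `Fermat.Agent.H53.cycloChar_*` (helper53).
-/

set_option autoImplicit false

namespace Fermat.Agent.H28

open Polynomial

theorem ker_isMaximal_of_charP (p : ℕ) (hp : p.Prime) (k : Type) [Field k] [CharP k p]
    (φ : integralClosure ℤ ℂ →+* k) : (RingHom.ker φ).IsMaximal := by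
  have hprime : (RingHom.ker φ).IsPrime := RingHom.ker_isPrime φ
  have hcomap : ((RingHom.ker φ).comap (algebraMap ℤ (integralClosure ℤ ℂ))).IsMaximal := by
    have h1 : (RingHom.ker φ).comap (algebraMap ℤ (integralClosure ℤ ℂ))
        = Ideal.span {(p : ℤ)} := by
      ext n
      rw [Ideal.mem_comap, RingHom.mem_ker, Ideal.mem_span_singleton]
      have : φ (algebraMap ℤ (integralClosure ℤ ℂ) n) = (n : k) := by
        rw [eq_intCast, map_intCast]
      rw [this]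
      exact CharP.intCast_eq_zero_iff k p n
    rw [h1]
    have hp' : Prime (p : ℤ) := Nat.prime_iff_prime_int.mp hp
    exact PrincipalIdealRing.isMaximal_of_irreducible hp'.irreducible
  exact Ideal.isMaximal_of_isIntegral_of_isMaximal_comap (R := ℤ) (RingHom.ker φ) hcomap

theorem isAlgClosed_quot (𝔪 : Ideal (integralClosure ℤ ℂ)) (_h𝔪 : 𝔪.IsMaximal) :
    letI := Ideal.Quotient.field 𝔪
    IsAlgClosed (integralClosure ℤ ℂ ⧸ 𝔪) := by
  let _ := Ideal.Quotient.field 𝔪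
  refine IsAlgClosed.of_exists_root _ ?_
  intro f hf hirr
  have hlift : f ∈ Polynomial.lifts (Ideal.Quotient.mk 𝔪) :=
    Polynomial.map_surjective _ Ideal.Quotient.mk_surjective f |>.elim fun q hq =>
      (Polynomial.mem_lifts f).mpr ⟨q, hq⟩
  obtain ⟨F, hF, hdeg, hmon⟩ := Polynomial.lifts_and_natDegree_eq_and_monic hlift hf
  have hdeg_pos : 0 < F.natDegree := by
    rw [hdeg]
    exact hirr.natDegree_pos
  -- a root in `ℂ`
  have hne : (F.map (algebraMap (integralClosure ℤ ℂ) ℂ)).degree ≠ 0 := by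
    rw [Polynomial.degree_map_eq_of_injective (FaithfulSMul.algebraMap_injective _ _)]
    intro h
    have := Polynomial.natDegree_eq_zero_iff_degree_le_zero.mpr (le_of_eq h)
    omega
  obtain ⟨z, hz⟩ := IsAlgClosed.exists_root (F.map (algebraMap (integralClosure ℤ ℂ) ℂ)) hne
  have hz' : Polynomial.aeval z F = 0 := by
    rw [Polynomial.aeval_def, ← Polynomial.eval_map]
    exact hz
  have hint : IsIntegral (integralClosure ℤ ℂ) z := ⟨F, hmon, hz'⟩
  have hintZ : IsIntegral ℤ z := isIntegral_trans z hint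
  let z' : integralClosure ℤ ℂ := ⟨z, hintZ⟩
  have hroot : Polynomial.eval z' F = 0 := by
    apply FaithfulSMul.algebraMap_injective (integralClosure ℤ ℂ) ℂ
    rw [map_zero, ← Polynomial.aeval_algebraMap_apply_eq_algebraMap_eval]
    exact hz'
  refine ⟨Ideal.Quotient.mk 𝔪 z', ?_⟩
  rw [← hF, Polynomial.eval_map, Polynomial.eval₂_at_apply, hroot, map_zero]

/-- **ES-G2.** -/
theorem quotAlgClosedStatement : QuotAlgClosedStatement :=
  ⟨fun p hp k _ _ φ => ker_isMaximal_of_charP p hp k φ, fun 𝔪 h𝔪 => isAlgClosed_quot 𝔪 h𝔪⟩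

/-- The trivial two-dimensional residual representation (for the degenerate level `0`). -/
noncomputable def trivialResidualRep' (k : Type) [Field k] : ResidualGaloisRep k where
  V := Fin 2 → k
  finrank_eq := by simp
  ρ := 1
  factorsThroughFiniteLevel := ⟨⊥, inferInstance, fun _ _ => rfl⟩

/-- **S29 from Frobenius density (weak form) and the Eichler–Shimura space.** -/
theorem s29_of_frobPow (hdense : Fermat.Agent.H64.FrobPowDense)
    (hE : EichlerShimuraSpaceStatement)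
    {N : ℕ} {g : CuspForm (CongruenceSubgroup.Gamma0 N) 2} (hg : g.IsNormalizedEigenform)
    {p : ℕ} (hp : p.Prime) {k : Type} [Field k] [CharP k p]
    (φ : integralClosure ℤ ℂ →+* k) :
    ∃ ρ : ResidualGaloisRep k, ρ.IsAttachedTo g φ ∧
      ∀ ℓ : ℕ, ℓ.Prime → ¬ ℓ ∣ N * p → ρ.IsUnramifiedAt ℓ := by
  classical
  rcases eq_or_ne N 0 with rfl | hN
  · refine ⟨trivialResidualRep' k, ?_, ?_⟩
    · intro ℓ _ h
      exact absurd (dvd_zero ℓ) h
    · intro ℓ _ h
      rw [zero_mul] at h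
      exact absurd (dvd_zero ℓ) h
  have : NeZero N := ⟨hN⟩
  have : Fact p.Prime := ⟨hp⟩
  -- the residue field of `ℤ̄`
  have hmax : (RingHom.ker φ).IsMaximal := ker_isMaximal_of_charP p hp k φ
  let _ : Field (integralClosure ℤ ℂ ⧸ RingHom.ker φ) := Ideal.Quotient.field (RingHom.ker φ)
  have : IsAlgClosed (integralClosure ℤ ℂ ⧸ RingHom.ker φ) := isAlgClosed_quot (RingHom.ker φ) hmax
  let φ' : integralClosure ℤ ℂ →+* (integralClosure ℤ ℂ ⧸ RingHom.ker φ) :=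
    Ideal.Quotient.mk (RingHom.ker φ)
  let ψ : (integralClosure ℤ ℂ ⧸ RingHom.ker φ) →+* k :=
    Ideal.Quotient.lift (RingHom.ker φ) φ (fun _ h => h)
  have hψ : ∀ x, ψ (φ' x) = φ x := fun x => Ideal.Quotient.lift_mk _ _ _
  have : CharP (integralClosure ℤ ℂ ⧸ RingHom.ker φ) p := by
    refine (CharP.charP_iff_prime_eq_zero hp).mpr ?_
    have h1 : ψ ((p : integralClosure ℤ ℂ ⧸ RingHom.ker φ)) = 0 := by
      rw [map_natCast]
      exact CharP.cast_eq_zero k p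
    exact (map_eq_zero ψ).mp h1
  obtain ⟨W, iW1, iW2, ρ, hWfin, hWnt, hfin, hunr, hfrob⟩ :=
    hE N g hg p hp (integralClosure ℤ ℂ ⧸ RingHom.ker φ) φ' Ideal.Quotient.mk_surjective
  -- the eigenvalues
  let a : ℕ → (integralClosure ℤ ℂ ⧸ RingHom.ker φ) := fun ℓ =>
    if h : ∃ b : integralClosure ℤ ℂ, (b : ℂ) = ModularFormClass.qCoeff g ℓ then φ' h.choose
    else 0
  have ha : ∀ (ℓ : ℕ) (b : integralClosure ℤ ℂ), (b : ℂ) = ModularFormClass.qCoeff g ℓ →
      a ℓ = φ' b := by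
    intro ℓ b hb
    have h : ∃ b : integralClosure ℤ ℂ, (b : ℂ) = ModularFormClass.qCoeff g ℓ := ⟨b, hb⟩
    show (if h : ∃ b : integralClosure ℤ ℂ, (b : ℂ) = ModularFormClass.qCoeff g ℓ
      then φ' h.choose else 0) = φ' b
    rw [dif_pos h]
    congr 1
    exact Subtype.ext (h.choose_spec.trans hb.symm)
  -- the cyclotomic character with values in the residue field
  let ι₀ : ZMod p →+* (integralClosure ℤ ℂ ⧸ RingHom.ker φ) := ZMod.castHom (dvd_refl p) _
  let d : GQ →* (integralClosure ℤ ℂ ⧸ RingHom.ker φ)ˣ :=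
    (Units.map (ι₀ : ZMod p →* (integralClosure ℤ ℂ ⧸ RingHom.ker φ))).comp
      (ExtCitation.cycloChar p)
  have hdval : ∀ σ : GQ, ((d σ : (integralClosure ℤ ℂ ⧸ RingHom.ker φ)ˣ) :
      integralClosure ℤ ℂ ⧸ RingHom.ker φ) =
        ι₀ ((ExtCitation.cycloChar p σ : (ZMod p)ˣ) : ZMod p) := fun σ => rfl
  have hdone : ∀ σ : GQ, ExtCitation.cycloChar p σ = 1 → d σ = 1 := by
    intro σ h
    show Units.map (ι₀ : ZMod p →* (integralClosure ℤ ℂ ⧸ RingHom.ker φ))
      (ExtCitation.cycloChar p σ) = 1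
    rw [h, map_one]
  have hd : GaloisFactorsThroughFiniteLevel d := by
    obtain ⟨L, hL, h⟩ := Fermat.Agent.H53.cycloChar_factorsThroughFiniteLevel p
    exact ⟨L, hL, fun σ hσ => hdone σ (h σ hσ)⟩
  have hgood : ∀ ℓ : ℕ, ℓ.Prime → ¬ ℓ ∣ N * p → ℓ ≠ p := by
    intro ℓ _ h hℓp
    exact h (hℓp ▸ dvd_mul_left ℓ N)
  have hS : ∀ ℓ : ℕ, ℓ.Prime → (ℓ ∉ (N * p).primeFactors ↔ ¬ ℓ ∣ N * p) := by
    intro ℓ hℓ
    rw [Nat.mem_primeFactors]
    constructor
    · intro h h'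
      exact h ⟨hℓ, h', mul_ne_zero hN hp.ne_zero⟩
    · intro h h'
      exact h h'.2.1
  have hdfrob : ∀ ℓ : ℕ, ℓ.Prime → ¬ ℓ ∣ N * p →
      ∀ A : ValuationSubring (AlgebraicClosure ℚ), A.LiesOverPrime ℓ →
        ∀ σ : GQ, A.IsFrobeniusAt σ ℓ →
          ((d σ : (integralClosure ℤ ℂ ⧸ RingHom.ker φ)ˣ) :
            integralClosure ℤ ℂ ⧸ RingHom.ker φ) = (ℓ : integralClosure ℤ ℂ ⧸ RingHom.ker φ) := by
    intro ℓ hℓ hℓNp A hA' σ hσ
    rw [hdval, Fermat.Agent.H53.cycloChar_of_isFrobeniusAt p hℓ (hgood ℓ hℓ hℓNp) hA' hσ,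
      map_natCast]
  have hFrob : ∀ ℓ : ℕ, ℓ.Prime → ℓ ∉ (N * p).primeFactors →
      ∀ A : ValuationSubring (AlgebraicClosure ℚ), A.LiesOverPrime ℓ →
        ∀ σ : GQ, A.IsFrobeniusAt σ ℓ →
          ρ σ * ρ σ - a ℓ • ρ σ + ((d σ : (integralClosure ℤ ℂ ⧸ RingHom.ker φ)ˣ) :
            integralClosure ℤ ℂ ⧸ RingHom.ker φ) •
            (1 : Module.End (integralClosure ℤ ℂ ⧸ RingHom.ker φ) W) = 0 := by
    intro ℓ hℓ hℓS A hA' σ hσ
    have hℓNp := (hS ℓ hℓ).mp hℓS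
    obtain ⟨b, hb, hrel⟩ := hfrob ℓ hℓ hℓNp A hA' σ hσ
    rw [ha ℓ b hb, hdfrob ℓ hℓ hℓNp A hA' σ hσ]
    exact hrel
  obtain ⟨r, hr1, hr2⟩ := Fermat.Agent.H64.exists_residualGaloisRep_of_frobenius_relations
    hdense ψ ρ hfin d hd (N * p).primeFactors a hFrob
  refine ⟨r, ?_, ?_⟩
  · intro ℓ hℓ hℓN hℓk A hA' σ hσ
    have hℓNp : ¬ ℓ ∣ N * p := by
      intro h
      rcases (Nat.Prime.dvd_mul hℓ).mp h with h | h
      · exact hℓN h
      · apply hℓk
        rw [(Nat.prime_dvd_prime_iff_eq hℓ hp).mp h]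
        exact CharP.cast_eq_zero k p
    obtain ⟨b, hb, -⟩ := hfrob ℓ hℓ hℓNp A hA' σ hσ
    refine ⟨b, hb, ?_⟩
    rw [hr2 ℓ hℓ ((hS ℓ hℓ).mpr hℓNp) A hA' σ hσ, ha ℓ b hb, hψ,
      hdfrob ℓ hℓ hℓNp A hA' σ hσ, map_natCast]
  · intro ℓ hℓ hℓNp A hA' σ hσ
    exact hr1 σ (hunr ℓ hℓ hℓNp A hA' σ hσ)
      (hdone σ (Fermat.Agent.H53.cycloChar_of_mem_inertiaSubgroupIn p hℓ (hgood ℓ hℓ hℓNp) hA' hσ))

end Fermat.Agent.H28
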