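import Mathlib
import Fermat.Agent.H28.ES.S29Final
import Fermat.Agent.H3.FrobPrelude

/-!
# P-ES / ES-G : S29 from the Eichler–Shimura space statement alone (helper28)

* `frobPowDense` : the Frobenius density input of `s29_of_frobPow`, UNCONDITIONAL
  (from helper3's `Fermat.Agent.H3.Frob.frobPow`).
* `s29_of_space` : S29 (frozen shape) from `EichlerShimuraSpaceStatement` alone.
-/

set_option autoImplicit false

namespace Fermat.Agent.H28

/-- Frobenius density (weak "power" form), unconditional. -/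
theorem frobPowDense : Fermat.Agent.H64.FrobPowDense := by
  intro F hF g S
  obtain ⟨ℓ, A, σ, k, _, hℓ, hℓS, hA, hFr, hσ, _⟩ := Fermat.Agent.H3.Frob.frobPow F hF g S
  exact ⟨ℓ, A, σ, k, hℓ, hℓS, hA, hFr, fun x hx => (hσ x hx).symm⟩

/-- **S29 from the Eichler–Shimura space statement alone.** -/
theorem s29_of_space (hE : EichlerShimuraSpaceStatement)
    {N : ℕ} {g : CuspForm (CongruenceSubgroup.Gamma0 N) 2} (hg : g.IsNormalizedEigenform)
    {p : ℕ} (hp : p.Prime) {k : Type} [Field k] [CharP k p]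
    (φ : integralClosure ℤ ℂ →+* k) :
    ∃ ρ : ResidualGaloisRep k, ρ.IsAttachedTo g φ ∧
      ∀ ℓ : ℕ, ℓ.Prime → ¬ ℓ ∣ N * p → ρ.IsUnramifiedAt ℓ :=
  s29_of_frobPow frobPowDense hE hg hp φ

end Fermat.Agent.H28
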