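import Mathlib
import Fermat.Agent.H28.ES.Interface3
import Fermat.Agent.H21.EsC.Interfaces

/-!
# P-ES / ES-G7 : the contract for `JEigenStatement` (helper28)

`JEigenStatement` (see `Fermat.Agent.H28.ES.Interface3`) is derived from

* `Fermat.Agent.H23.EsA.TorsionCharStatement N`   (ES-A final: Kummer theory over `ℂ`),
* `Fermat.Agent.H21.EsC.KummerHeckeStatement N`   (ES-C2: Hecke equivariance over `ℂ`),
* `Fermat.Agent.H21.EsC.CohEigenvectorStatement`  (ES-C3: eigenvector in `Hom_par(Γ₀(N), k)`),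
* `HeckeDescentStatement N`                       (ES-B + C4, THIS FILE: descent `ℚ̄ → ℂ` of
  torsion classes, compatible with the prelude Hecke operators at `ℓ ∤ N`),
* `TensorEigenStatement`                          (pure algebra, THIS FILE).
-/

set_option autoImplicit false

namespace Fermat.Agent.H28

open ModularCurve AlgebraicCurve
open scoped TensorProduct

/-- **ES-B + C4.**  There is an injective homomorphism `J₀(N)(ℚ̄) → Pic⁰(ℂ(X₀(N)))`, onto the
torsion, which commutes with the prelude Hecke operators `T_ℓ`, `ℓ ∤ N`, on torsion classes. -/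
def HeckeDescentStatement (N : ℕ) [NeZero N] : Prop :=
  ∃ φ : JZero N →+ Pic0 ℂ ↥(Fermat.Agent.H23.EsA.FC N),
    Function.Injective φ ∧
    (∀ m : ℕ, 0 < m → ∀ z : Pic0 ℂ ↥(Fermat.Agent.H23.EsA.FC N),
      z ∈ Pic0.torsion ℂ ↥(Fermat.Agent.H23.EsA.FC N) m →
        ∃ z₀ : JZero N, z₀ ∈ Pic0.torsion (AlgebraicClosure ℚ) (modularFunctionFieldBar N) m ∧
          φ z₀ = z) ∧
    ∀ (ℓ : ℕ) [NeZero ℓ], ℓ.Prime → ¬ ℓ ∣ N → ∀ x : JZero N, (∃ m : ℕ, 0 < m ∧ m • x = 0) →
      φ (heckeOperatorAlong (AlgebraicClosure ℚ) N ℓ x) = heckeOperatorAlong ℂ N ℓ (φ x)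

/-- **Pure algebra (Mathlib only).**  Let `M` be a finite abelian group embedded by `ev` in the
`𝔽_p`-valued functions on a set `X`, let `ψ : X → k` (`char k = p`) be a nonzero function all
of whose `𝔽_p`-coordinates `λ ∘ ψ` come from `M`, and let `t i` be endomorphisms of `M` which
send the element of `M` giving `λ ∘ ψ` to the one giving `λ ∘ (c i • ψ)`.  Then there is a
nonzero `w ∈ k ⊗_ℤ M` with `(1 ⊗ t i) w = c i • w`. -/
def TensorEigenStatement : Prop :=
  ∀ (p : ℕ) [Fact p.Prime] (k : Type) [Field k] [CharP k p] (X : Type) (M : Type)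
    [AddCommGroup M] [Finite M] (ev : M →+ (X → ZMod p)), Function.Injective ev →
    ∀ (ψ : X → k), ψ ≠ 0 →
    (∀ lam : k →+ ZMod p, ∃ m : M, ∀ x, ev m x = lam (ψ x)) →
    ∀ (ι : Type) (t : ι → (M →+ M)) (c : ι → k),
      (∀ (i : ι) (lam : k →+ ZMod p) (m m' : M), (∀ x, ev m x = lam (ψ x)) →
        (∀ x, ev m' x = lam (c i * ψ x)) → t i m = m') →
      ∃ w : k ⊗[ℤ] M, w ≠ 0 ∧ ∀ i, (t i).toIntLinearMap.baseChange k w = c i • w

end Fermat.Agent.H28
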