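import Mathlib
import Fermat.Agent.H28.ES.Interface
import Fermat.Agent.H28.ES.Interface2

/-!
# P-ES / ES-G4 : the assembly of S29 (helper28)

`s29_of` : the statement of S29 from the five interface statements.
-/

set_option autoImplicit false

namespace Fermat.Agent.H28

open Polynomial

/-- The trivial two-dimensional residual representation. -/
noncomputable def trivialResidualRep (k : Type) [Field k] : ResidualGaloisRep k where
  V := Fin 2 → k
  finrank_eq := by simp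
  ρ := 1
  factorsThroughFiniteLevel := ⟨⊥, inferInstance, fun _ _ => rfl⟩

/-- Uniqueness of the linear coefficient in a quadratic relation satisfied by an invertible
endomorphism of a nontrivial module. -/
lemma quad_coeff_unique {F W : Type*} [Field F] [AddCommGroup W] [Module F W] [Nontrivial W]
    {x : Module.End F W} (hx : IsUnit x) {t₁ t₂ e : F}
    (h₁ : x * x - t₁ • x + e • (1 : Module.End F W) = 0)
    (h₂ : x * x - t₂ • x + e • (1 : Module.End F W) = 0) : t₁ = t₂ := by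
  have h : (t₁ - t₂) • x = 0 := by
    rw [sub_smul]
    have := congrArg₂ (· - ·) h₂ h₁
    simp only [sub_self] at this
    rw [← this]
    abel
  rcases smul_eq_zero.mp h with h0 | h0
  · exact sub_eq_zero.mp h0
  · exfalso
    rw [h0] at hx
    exact not_isUnit_zero hx


/-- The core of the assembly, over an algebraically closed field `F` of characteristic `p`:
from a nonzero Frobenius-quadratic space to a two-dimensional residual representation. -/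
theorem residualRep_of_space (hC : ChebotarevStatement) (hQ : QuadraticRepStatement)
    (hε : CycloCharStatement) (N p : ℕ) (hN : N ≠ 0) (hp : p.Prime)
    (F : Type) [Field F] [IsAlgClosed F] [CharP F p]
    (a : ℕ → F)
    (W : Type) [AddCommGroup W] [Module F W] [Module.Finite F W] [Nontrivial W]
    (ρ : GQ →* Module.End F W)
    (hfin : GaloisFactorsThroughFiniteLevel ρ)
    (hunr : ∀ ℓ : ℕ, ℓ.Prime → ¬ ℓ ∣ N * p →
      ∀ A : ValuationSubring (AlgebraicClosure ℚ), A.LiesOverPrime ℓ →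
        ∀ σ ∈ A.inertiaSubgroupIn ℚ, ρ σ = 1)
    (hfrob : ∀ ℓ : ℕ, ℓ.Prime → ¬ ℓ ∣ N * p →
      ∀ A : ValuationSubring (AlgebraicClosure ℚ), A.LiesOverPrime ℓ →
        ∀ σ : GQ, A.IsFrobeniusAt σ ℓ →
          ρ σ * ρ σ - a ℓ • ρ σ + (ℓ : F) • (1 : Module.End F W) = 0) :
    ∃ r : ResidualGaloisRep F,
      (∀ ℓ : ℕ, ℓ.Prime → ¬ ℓ ∣ N * p →
        ∀ A : ValuationSubring (AlgebraicClosure ℚ), A.LiesOverPrime ℓ →
          ∀ σ : GQ, A.IsFrobeniusAt σ ℓ →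
            LinearMap.charpoly (r.ρ σ) = X ^ 2 - C (a ℓ) * X + C ((ℓ : F))) ∧
      (∀ ℓ : ℕ, ℓ.Prime → ¬ ℓ ∣ N * p → r.IsUnramifiedAt ℓ) := by
  classical
  obtain ⟨ε₀, ⟨L₂, hL₂fin, hL₂⟩, hεfrob, hεin, hεc⟩ := hε p hp
  obtain ⟨L₁, hL₁fin, hL₁⟩ := hfin
  have : Fact p.Prime := ⟨hp⟩
  -- the character with values in `F`
  let ι : ZMod p →+* F := ZMod.castHom (dvd_refl p) F
  let ε : GQ →* Fˣ := (Units.map (ι : ZMod p →* F)).comp ε₀
  have hεval : ∀ σ : GQ, ((ε σ : Fˣ) : F) = ι ((ε₀ σ : (ZMod p)ˣ) : ZMod p) := fun σ => rfl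
  have hι_nat : ∀ n : ℕ, ι (n : ZMod p) = (n : F) := fun n => map_natCast ι n
  have hunit : ∀ σ : GQ, IsUnit (ρ σ) := fun σ =>
    ⟨⟨ρ σ, ρ σ⁻¹, by rw [← map_mul, mul_inv_cancel, map_one],
      by rw [← map_mul, inv_mul_cancel, map_one]⟩, rfl⟩
  -- primes not dividing `N * p` ↔ primes different from `p` not dividing `N`
  have hgood : ∀ ℓ : ℕ, ℓ.Prime → ¬ ℓ ∣ N * p → ℓ ≠ p := by
    intro ℓ _ h hℓp
    exact h (hℓp ▸ dvd_mul_left ℓ N)
  -- the finite level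
  let L : IntermediateField ℚ (AlgebraicClosure ℚ) := L₁ ⊔ L₂
  have : FiniteDimensional ℚ L₁ := hL₁fin
  have : FiniteDimensional ℚ L₂ := hL₂fin
  have hLfin : FiniteDimensional ℚ L := IntermediateField.finiteDimensional_sup L₁ L₂
  have hLρ : ∀ σ : GQ, (∀ x ∈ L, σ x = x) → ρ σ = 1 := fun σ h =>
    hL₁ σ fun x hx => h x ((le_sup_left : L₁ ≤ L) hx)
  have hLε : ∀ σ : GQ, (∀ x ∈ L, σ x = x) → ε₀ σ = 1 := fun σ h =>
    hL₂ σ fun x hx => h x ((le_sup_right : L₂ ≤ L) hx)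
  -- two elements agreeing on `L` have the same image
  have hagree : ∀ σ τ : GQ, (∀ x ∈ L, τ x = σ x) → ρ τ = ρ σ ∧ ε₀ τ = ε₀ σ := by
    intro σ τ h
    have h1 : ∀ x ∈ L, (σ⁻¹ * τ) x = x := by
      intro x hx
      show σ⁻¹ (τ x) = x
      rw [h x hx]
      exact σ.symm_apply_apply x
    have h2 := hLρ _ h1
    have h3 := hLε _ h1
    rw [map_mul] at h2 h3
    constructor
    · have : ρ σ * (ρ σ⁻¹ * ρ τ) = ρ σ * 1 := by rw [h2]
      rw [← mul_assoc, ← map_mul, mul_inv_cancel, map_one, one_mul, mul_one] at this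
      exact this
    · have : ε₀ σ * (ε₀ σ⁻¹ * ε₀ τ) = ε₀ σ * 1 := by rw [h3]
      rw [← mul_assoc, ← map_mul, mul_inv_cancel, map_one, one_mul, mul_one] at this
      exact this
  -- every element satisfies a quadratic relation
  have hquad : ∀ σ : GQ, ∃ t : F,
      ρ σ * ρ σ - t • ρ σ + ((ε σ : Fˣ) : F) • (1 : Module.End F W) = 0 := by
    intro σ
    obtain ⟨ℓ, A, τ, hℓ, hℓB, hA, hτ, hτσ⟩ := hC L hLfin σ (N * p).primeFactors
    have hℓNp : ¬ ℓ ∣ N * p := by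
      intro h
      exact hℓB (Nat.mem_primeFactors.mpr ⟨hℓ, h, mul_ne_zero hN hp.ne_zero⟩)
    obtain ⟨h1, h2⟩ := hagree σ τ hτσ
    refine ⟨a ℓ, ?_⟩
    have h3 := hfrob ℓ hℓ hℓNp A hA τ hτ
    rw [h1] at h3
    have h4 : ((ε σ : Fˣ) : F) = (ℓ : F) := by
      rw [hεval, ← h2, hεfrob ℓ hℓ (hgood ℓ hℓ hℓNp) A hA τ hτ, hι_nat]
    rw [h4]
    exact h3
  choose t ht using hquad
  -- complex conjugation
  have hc : (2 : F) ≠ 0 → ∃ c : GQ, c * c = 1 ∧ ε c = -1 := by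
    intro h2
    have hp2 : p ≠ 2 := by
      rintro rfl
      apply h2
      have := CharP.cast_eq_zero F 2
      exact_mod_cast this
    obtain ⟨c, hcc, hcε⟩ := hεc hp2
    refine ⟨c, hcc, ?_⟩
    show Units.map (ι : ZMod p →* F) (ε₀ c) = -1
    rw [hcε]
    ext
    simp
  obtain ⟨V, iV1, iV2, iV3, ρ₂, hV, hchar, hker⟩ := hQ F GQ W ρ ε t ht hc
  have hεone : ∀ σ : GQ, ε₀ σ = 1 → ε σ = 1 := by
    intro σ h
    show Units.map (ι : ZMod p →* F) (ε₀ σ) = 1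
    rw [h, map_one]
  refine ⟨{ V := V, finrank_eq := hV, ρ := ρ₂,
            factorsThroughFiniteLevel := ⟨L, hLfin, fun σ h =>
              hker σ (hLρ σ h) (hεone σ (hLε σ h))⟩ }, ?_, ?_⟩
  · intro ℓ hℓ hℓNp A hA σ hσ
    show LinearMap.charpoly (ρ₂ σ) = _
    rw [hchar σ]
    have h3 := hfrob ℓ hℓ hℓNp A hA σ hσ
    have h4 : ((ε σ : Fˣ) : F) = (ℓ : F) := by
      rw [hεval, hεfrob ℓ hℓ (hgood ℓ hℓ hℓNp) A hA σ hσ, hι_nat]
    have h5 := ht σ
    rw [h4] at h5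
    rw [h4, quad_coeff_unique (hunit σ) h5 h3]
  · intro ℓ hℓ hℓNp A hA σ hσ
    show ρ₂ σ = 1
    exact hker σ (hunr ℓ hℓ hℓNp A hA σ hσ)
      (hεone σ (hεin ℓ hℓ (hgood ℓ hℓ hℓNp) A hA σ hσ))

/-- **ES-G4**: the statement of S29 from the interface statements. -/
theorem s29_of (hC : ChebotarevStatement) (hE : EichlerShimuraSpaceStatement)
    (hQ : QuadraticRepStatement) (hA : QuotAlgClosedStatement) (hε : CycloCharStatement)
    {N : ℕ} {g : CuspForm (CongruenceSubgroup.Gamma0 N) 2} (hg : g.IsNormalizedEigenform)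
    {p : ℕ} (hp : p.Prime) {k : Type} [Field k] [CharP k p]
    (φ : integralClosure ℤ ℂ →+* k) :
    ∃ ρ : ResidualGaloisRep k, ρ.IsAttachedTo g φ ∧
      ∀ ℓ : ℕ, ℓ.Prime → ¬ ℓ ∣ N * p → ρ.IsUnramifiedAt ℓ := by
  classical
  rcases eq_or_ne N 0 with rfl | hN
  · refine ⟨trivialResidualRep k, ?_, ?_⟩
    · intro ℓ _ h
      exact absurd (dvd_zero ℓ) h
    · intro ℓ _ h
      rw [zero_mul] at h
      exact absurd (dvd_zero ℓ) h
  have : NeZero N := ⟨hN⟩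
  -- the residue field of `ℤ̄`
  have hmax : (RingHom.ker φ).IsMaximal := hA.1 p hp k φ
  let _ : Field (integralClosure ℤ ℂ ⧸ RingHom.ker φ) := Ideal.Quotient.field (RingHom.ker φ)
  have : IsAlgClosed (integralClosure ℤ ℂ ⧸ RingHom.ker φ) := hA.2 (RingHom.ker φ) hmax
  let φ' : integralClosure ℤ ℂ →+* (integralClosure ℤ ℂ ⧸ RingHom.ker φ) :=
    Ideal.Quotient.mk (RingHom.ker φ)
  let ψ : (integralClosure ℤ ℂ ⧸ RingHom.ker φ) →+* k :=
    Ideal.Quotient.lift (RingHom.ker φ) φ (fun _ h => h)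
  have hψ : ∀ x, ψ (φ' x) = φ x := fun x => Ideal.Quotient.lift_mk _ _ _
  have : CharP (integralClosure ℤ ℂ ⧸ RingHom.ker φ) p := by
    refine (CharP.charP_iff_prime_eq_zero hp).mpr ?_
    have h1 : ψ ((p : integralClosure ℤ ℂ ⧸ RingHom.ker φ)) = 0 := by
      rw [map_natCast]
      exact CharP.cast_eq_zero k p
    exact (map_eq_zero ψ).mp h1
  obtain ⟨W, iW1, iW2, ρ, hWfin, hWnt, hfin, hunr, hfrob⟩ :=
    hE N g hg p hp (integralClosure ℤ ℂ ⧸ RingHom.ker φ) φ' Ideal.Quotient.mk_surjective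
  -- the eigenvalues
  let a : ℕ → (integralClosure ℤ ℂ ⧸ RingHom.ker φ) := fun ℓ =>
    if h : ∃ b : integralClosure ℤ ℂ, (b : ℂ) = ModularFormClass.qCoeff g ℓ then φ' h.choose
    else 0
  have ha : ∀ (ℓ : ℕ) (b : integralClosure ℤ ℂ), (b : ℂ) = ModularFormClass.qCoeff g ℓ →
      a ℓ = φ' b := by
    intro ℓ b hb
    have h : ∃ b : integralClosure ℤ ℂ, (b : ℂ) = ModularFormClass.qCoeff g ℓ := ⟨b, hb⟩
    show (if h : ∃ b : integralClosure ℤ ℂ, (b : ℂ) = ModularFormClass.qCoeff g ℓ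
      then φ' h.choose else 0) = φ' b
    rw [dif_pos h]
    congr 1
    exact Subtype.ext (h.choose_spec.trans hb.symm)
  have hfrob' : ∀ ℓ : ℕ, ℓ.Prime → ¬ ℓ ∣ N * p →
      ∀ A : ValuationSubring (AlgebraicClosure ℚ), A.LiesOverPrime ℓ →
        ∀ σ : GQ, A.IsFrobeniusAt σ ℓ →
          ρ σ * ρ σ - a ℓ • ρ σ + (ℓ : integralClosure ℤ ℂ ⧸ RingHom.ker φ) •
            (1 : Module.End (integralClosure ℤ ℂ ⧸ RingHom.ker φ) W) = 0 := by
    intro ℓ hℓ hℓNp A hA' σ hσ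
    obtain ⟨b, hb, hrel⟩ := hfrob ℓ hℓ hℓNp A hA' σ hσ
    rw [ha ℓ b hb]
    exact hrel
  obtain ⟨r, hr1, hr2⟩ := residualRep_of_space hC hQ hε N p hN hp
    (integralClosure ℤ ℂ ⧸ RingHom.ker φ) a W ρ hfin hunr hfrob'
  refine ⟨r.baseChangeAlong ψ, ?_, ?_⟩
  · intro ℓ hℓ hℓN hℓk A hA' σ hσ
    have hℓNp : ¬ ℓ ∣ N * p := by
      intro h
      rcases (Nat.Prime.dvd_mul hℓ).mp h with h | h
      · exact hℓN h
      · apply hℓk
        rw [(Nat.prime_dvd_prime_iff_eq hℓ hp).mp h]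
        exact CharP.cast_eq_zero k p
    obtain ⟨b, hb, -⟩ := hfrob ℓ hℓ hℓNp A hA' σ hσ
    refine ⟨b, hb, ?_⟩
    have h1 := hr1 ℓ hℓ hℓNp A hA' σ hσ
    rw [ha ℓ b hb] at h1
    let _ : Algebra (integralClosure ℤ ℂ ⧸ RingHom.ker φ) k := ψ.toAlgebra
    show LinearMap.charpoly ((r.ρ σ).baseChange k) = _
    rw [LinearMap.charpoly_baseChange, h1]
    have hψ' : algebraMap (integralClosure ℤ ℂ ⧸ RingHom.ker φ) k = ψ := rfl
    simp only [Polynomial.map_add, Polynomial.map_sub, Polynomial.map_mul, Polynomial.map_pow,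
      Polynomial.map_X, Polynomial.map_C, hψ', hψ, map_natCast, Polynomial.map_natCast]
  · intro ℓ hℓ hℓNp A hA' σ hσ
    let _ : Algebra (integralClosure ℤ ℂ ⧸ RingHom.ker φ) k := ψ.toAlgebra
    show (r.ρ σ).baseChange k = 1
    rw [hr2 ℓ hℓ hℓNp A hA' σ hσ, LinearMap.baseChange_one]

end Fermat.Agent.H28
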