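import Mathlib
import Fermat.Agent.H28.ES.Interface3
import Fermat.Agent.H28.ES.EigenRep
import Fermat.Agent.H36.ESE.S37Formal

/-!
# P-ES / ES-G6 : `EichlerShimuraSpaceStatement` from the `J₀(N)`-side statements (helper28)

`eichlerShimuraSpace_of_parts`: the Eichler–Shimura space `W` is the common eigenspace of the
operators `1 ⊗ T_ℓ` (`ℓ ∤ N p`) in `k ⊗_ℤ J₀(N)(ℚ̄)[p]` for the eigenvalues `φ(a_ℓ(g))`.
-/

set_option autoImplicit false

namespace Fermat.Agent.H28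

open ModularCurve AlgebraicCurve
open scoped TensorProduct

section Torsion

variable {N p : ℕ}

theorem JTors_nsmul {x : JZero N} (hx : x ∈ JTors N p) : p • x = 0 := by
  have := Pic0.mem_torsion.mp hx
  rwa [natCast_zsmul] at this

theorem JTors_pow {x : JZero N} (hx : x ∈ JTors N p) : ∃ n : ℕ, p ^ n • x = 0 :=
  ⟨1, by rw [pow_one]; exact JTors_nsmul hx⟩

theorem JTors_torsion {x : JZero N} (hp : 0 < p) (hx : x ∈ JTors N p) :
    ∃ m : ℕ, 0 < m ∧ m • x = 0 :=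
  ⟨p, hp, JTors_nsmul hx⟩

/-- The Galois action on `J₀(N)(ℚ̄)[p]` as a monoid homomorphism. -/
noncomputable def galTorsHom (N p : ℕ) : GQ →* Module.End ℤ (JTors N p) where
  toFun σ := galTors N p σ
  map_one' := by
    refine LinearMap.ext fun x => Subtype.ext ?_
    rw [coe_galTors, one_smul, Module.End.one_apply]
  map_mul' σ τ := by
    refine LinearMap.ext fun x => Subtype.ext ?_
    rw [coe_galTors, Module.End.mul_apply, coe_galTors, coe_galTors, mul_smul]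

theorem galTorsHom_apply (σ : GQ) : galTorsHom N p σ = galTors N p σ := rfl

end Torsion

section Reduction

variable {N p : ℕ} [NeZero N]

/-- Inertia at a good place acts trivially on `J₀(N)(ℚ̄)[p]`. -/
theorem galTors_inertia (hred : Fermat.Agent.H36.ReductionDataStatement N p)
    {ℓ : ℕ} (hℓ : ℓ.Prime) (hℓNp : ¬ ℓ ∣ N * p)
    (A : ValuationSubring (AlgebraicClosure ℚ)) (hA : A.LiesOverPrime ℓ)
    (σ : GQ) (hσ : σ ∈ A.inertiaSubgroupIn ℚ) : galTors N p σ = 1 := by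
  obtain ⟨J₀, _, ⟨D⟩⟩ := hred ℓ hℓ hℓNp A hA
  exact end_eq_one_of_red (galTors N p σ) (fun x => σ • x) (coe_galTors N p σ) D.red
    (fun x hx => D.red_injective x (JTors_pow hx)) (D.red_inertia σ hσ)

/-- The Eichler–Shimura relation on `J₀(N)(ℚ̄)[p]` at a Frobenius element of a good place. -/
theorem galTors_frobenius (hred : Fermat.Agent.H36.ReductionDataStatement N p)
    {ℓ : ℕ} (hℓ : ℓ.Prime) (hℓNp : ¬ ℓ ∣ N * p)
    (A : ValuationSubring (AlgebraicClosure ℚ)) (hA : A.LiesOverPrime ℓ)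
    (σ : GQ) (hσ : A.IsFrobeniusAt σ ℓ) :
    galTors N p σ * galTors N p σ - heckeTors N p ⟨ℓ, hℓ⟩ * galTors N p σ
      + (ℓ : ℤ) • (1 : Module.End ℤ (JTors N p)) = 0 := by
  obtain ⟨J₀, _, ⟨D⟩⟩ := hred ℓ hℓ hℓNp A hA
  exact end_quadratic_of_red (galTors N p σ) (heckeTors N p ⟨ℓ, hℓ⟩) (fun x => σ • x)
    (fun x => heckeOperatorBar N ⟨ℓ, hℓ⟩ x) (coe_galTors N p σ) (coe_heckeTors N p ⟨ℓ, hℓ⟩)
    D.red (fun x hx => D.red_injective x (JTors_pow hx)) D.frob D.ver D.ver_frob ℓ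
    (D.red_frobenius σ hσ) D.red_hecke

theorem heckeTors_comm_galTors (hgal : JGalHeckeStatement) (hp : 0 < p) (ℓ : Nat.Primes)
    (hℓ : ¬ (ℓ : ℕ) ∣ N) (σ : GQ) :
    heckeTors N p ℓ * galTors N p σ = galTors N p σ * heckeTors N p ℓ :=
  end_comm_of_comm (galTors N p σ) (heckeTors N p ℓ) (fun x => σ • x)
    (fun x => heckeOperatorBar N ℓ x) (coe_galTors N p σ) (coe_heckeTors N p ℓ)
    (fun x hx => hgal N ℓ hℓ σ x (JTors_torsion hp hx))

/-- A finite level trivialising the Galois action on `J₀(N)(ℚ̄)[p]`. -/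
theorem exists_level_galTors (hsm : JSmoothStatement) (hp : 0 < p) [Finite (JTors N p)] :
    ∃ L : IntermediateField ℚ (AlgebraicClosure ℚ), FiniteDimensional ℚ L ∧
      ∀ σ : GQ, (∀ y ∈ L, σ y = y) → galTors N p σ = 1 := by
  choose L hL hfix using fun x : JTors N p => hsm N (x : JZero N) (JTors_torsion hp x.2)
  have : ∀ x, FiniteDimensional ℚ (L x) := hL
  refine ⟨⨆ x, L x, inferInstance, fun σ hσ => ?_⟩
  refine LinearMap.ext fun x => Subtype.ext ?_
  rw [coe_galTors, Module.End.one_apply]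
  exact hfix x σ fun y hy => hσ y (le_iSup L x hy)

end Reduction

/-- **ES-G6.**  The Eichler–Shimura space from the `J₀(N)`-side statements. -/
theorem eichlerShimuraSpace_of_parts
    (hred : ∀ (N p : ℕ) [NeZero N], Fermat.Agent.H36.ReductionDataStatement N p)
    (hgal : JGalHeckeStatement) (hsm : JSmoothStatement) (hfin : JTorsFiniteStatement)
    (heig : JEigenStatement) : EichlerShimuraSpaceStatement := by
  intro N _ g hg p hp k _ _ φ _
  obtain ⟨w, hw, hwe⟩ := heig N g hg p hp k φ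
  have : Finite (JTors N p) := hfin N p hp
  -- index set: the good primes; eigenvalues
  have hex : ∀ i : {ℓ : Nat.Primes // ¬ (ℓ : ℕ) ∣ N * p},
      ∃ a : integralClosure ℤ ℂ, (a : ℂ) = ModularFormClass.qCoeff g (i : Nat.Primes) ∧
        (heckeTors N p i).baseChange k w = φ a • w := fun i => hwe i.1 i.2
  choose a ha hae using hex
  have hcomm : ∀ (i : {ℓ : Nat.Primes // ¬ (ℓ : ℕ) ∣ N * p}) (σ : GQ),
      heckeTors N p i * galTorsHom N p σ = galTorsHom N p σ * heckeTors N p i := fun i σ =>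
    heckeTors_comm_galTors hgal hp.pos i (fun h => i.2 (Dvd.dvd.mul_right h p)) σ
  obtain ⟨W, _, _, ρ, hWfin, hWnt, hone, hquad⟩ :=
    exists_eigenRep (k := k) (ρ₀ := galTorsHom N p)
      (h := fun i : {ℓ : Nat.Primes // ¬ (ℓ : ℕ) ∣ N * p} => heckeTors N p i)
      (c := fun i => φ (a i)) hcomm w hw hae
  refine ⟨W, inferInstance, inferInstance, ρ, hWfin, hWnt, ?_, ?_, ?_⟩
  · obtain ⟨L, hL, hLfix⟩ := exists_level_galTors (N := N) (p := p) hsm hp.pos
    exact ⟨L, hL, fun σ hσ => hone σ (hLfix σ hσ)⟩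
  · intro ℓ hℓ hℓNp A hA σ hσ
    exact hone σ (galTors_inertia (hred N p) hℓ hℓNp A hA σ hσ)
  · intro ℓ hℓ hℓNp A hA σ hσ
    refine ⟨a ⟨⟨ℓ, hℓ⟩, hℓNp⟩, ha ⟨⟨ℓ, hℓ⟩, hℓNp⟩, ?_⟩
    have := hquad σ ⟨⟨ℓ, hℓ⟩, hℓNp⟩ (ℓ : ℤ) (galTors_frobenius (hred N p) hℓ hℓNp A hA σ hσ)
    simpa using this

end Fermat.Agent.H28
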