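import Mathlib
import Fermat.Agent.H28.ES.S29Space
import Fermat.Agent.H28.ES.SpaceGlue

/-!
# P-ES / ES-G : S29 from the `J₀(N)`-side statements (helper28)

* `s29_of_parts` : S29 (frozen shape) from reduction data + the four `J₀(N)`-statements of
  `Fermat.Agent.H28.ES.Interface3`.
(`frobPowDense`, `s29_of_space` are in `Fermat.Agent.H28.ES.S29Space`.)
-/

set_option autoImplicit false

namespace Fermat.Agent.H28

/-- **S29 from reduction data and the four `J₀(N)`-statements.** -/
theorem s29_of_parts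
    (hred : ∀ (N p : ℕ) [NeZero N], Fermat.Agent.H36.ReductionDataStatement N p)
    (hgal : JGalHeckeStatement) (hsm : JSmoothStatement) (hfin : JTorsFiniteStatement)
    (heig : JEigenStatement)
    {N : ℕ} {g : CuspForm (CongruenceSubgroup.Gamma0 N) 2} (hg : g.IsNormalizedEigenform)
    {p : ℕ} (hp : p.Prime) {k : Type} [Field k] [CharP k p]
    (φ : integralClosure ℤ ℂ →+* k) :
    ∃ ρ : ResidualGaloisRep k, ρ.IsAttachedTo g φ ∧
      ∀ ℓ : ℕ, ℓ.Prime → ¬ ℓ ∣ N * p → ρ.IsUnramifiedAt ℓ :=
  s29_of_space (eichlerShimuraSpace_of_parts hred hgal hsm hfin heig) hg hp φ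

end Fermat.Agent.H28
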