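import Mathlib
import Fermat.Agent.H28.ES.Interface
import Fermat.Agent.H28.ES.EigenRep
import Fermat.Agent.H22.ES.Interfaces

/-!
# P-ES / ES-G6 (row 367): the torsion package gives the Eichler–Shimura space (helper28)

`eichlerShimuraSpace_of_torsion`:
`Fermat.Agent.H22.ES.EichlerShimuraTorsionStatement` together with the finite-level statement
(`Fermat.Agent.H14.TorsionLevelStatement N` for all `N`, stated inline) implies
`Fermat.Agent.H28.EichlerShimuraSpaceStatement`.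

The space `W` is the common eigenspace of the `1 ⊗ T_ℓ` (`ℓ ∤ N p`) in `k ⊗_{𝔽_p} J₀(N)(ℚ̄)[p]`.
-/

set_option autoImplicit false

namespace Fermat.Agent.H28

open ModularCurve AlgebraicCurve
open scoped TensorProduct

/-- The finite-level hypothesis, in the shape of `Fermat.Agent.H14.TorsionLevelStatement`. -/
def TorsionLevelAllStatement : Prop :=
  ∀ (N : ℕ) [NeZero N] (m : ℕ), 0 < m →
    ∃ L : IntermediateField ℚ (AlgebraicClosure ℚ), FiniteDimensional ℚ L ∧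
      ∀ σ : AlgebraicClosure ℚ ≃ₐ[ℚ] AlgebraicClosure ℚ, (∀ x ∈ L, σ x = x) →
        ∀ x : JZero N, m • x = 0 → σ • x = x

theorem torsionGaloisRep_eq_one_of_fix {N p : ℕ} (σ : GQ)
    (h : ∀ x : JZero N, p • x = 0 → σ • x = x) : JZero.torsionGaloisRep N p σ = 1 := by
  refine LinearMap.ext fun x => Subtype.ext ?_
  rw [JZero.coe_torsionGaloisRep_apply, Module.End.one_apply]
  refine h _ ?_
  have := Pic0.mem_torsion.mp x.2
  rwa [natCast_zsmul] at this

/-- The finite-level hypothesis actually used: only at primes `p`, and only when `J₀(N)[p]` is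
finite (this is `Fermat.Agent.H53.jZero_torsion_finiteLevel`). -/
def TorsionLevelPrimeStatement : Prop :=
  ∀ (N : ℕ) [NeZero N] (p : ℕ), p.Prime →
    Finite (Pic0.torsion (AlgebraicClosure ℚ) (modularFunctionFieldBar N) p) →
    ∃ L : IntermediateField ℚ (AlgebraicClosure ℚ), FiniteDimensional ℚ L ∧
      ∀ σ : AlgebraicClosure ℚ ≃ₐ[ℚ] AlgebraicClosure ℚ, (∀ x ∈ L, σ x = x) →
        JZero.torsionGaloisRep N p σ = 1

theorem torsionLevelPrime_of_all (hL : TorsionLevelAllStatement) : TorsionLevelPrimeStatement := by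
  intro N _ p hp _
  obtain ⟨L, hLfin, hLfix⟩ := hL N p hp.pos
  exact ⟨L, hLfin, fun σ hσ => torsionGaloisRep_eq_one_of_fix σ (hLfix σ hσ)⟩

/-- **ES-G6 (row 367), core form.** -/
theorem eichlerShimuraSpace_of_torsion_core
    (hT : Fermat.Agent.H22.ES.EichlerShimuraTorsionStatement)
    (hL : TorsionLevelPrimeStatement) : EichlerShimuraSpaceStatement := by
  intro N _ g hg p hp k _ _ φ _
  obtain ⟨hfin, hunr, D, hD⟩ := hT N p hp
  let _ : Algebra (ZMod p) k := ZMod.algebra k p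
  obtain ⟨v, hv, hve⟩ := hD g hg k φ
  have hex : ∀ i : {ℓ : ℕ // ℓ.Prime ∧ ¬ ℓ ∣ N * p},
      ∃ a : integralClosure ℤ ℂ, (a : ℂ) = ModularFormClass.qCoeff g (i : ℕ) ∧
        (D.T i).baseChange k v = φ a • v := fun i => hve i.1 i.2.1 i.2.2
  choose a ha hae using hex
  have hcomm : ∀ (i : {ℓ : ℕ // ℓ.Prime ∧ ¬ ℓ ∣ N * p}) (σ : GQ),
      D.T i * JZero.torsionGaloisRep N p σ = JZero.torsionGaloisRep N p σ * D.T i :=
    fun i σ => D.galois i σ
  obtain ⟨W, _, _, ρ, hWfin, hWnt, hone, hquad⟩ :=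
    exists_eigenRep (k := k) (ρ₀ := JZero.torsionGaloisRep N p)
      (h := fun i : {ℓ : ℕ // ℓ.Prime ∧ ¬ ℓ ∣ N * p} => D.T i)
      (c := fun i => φ (a i)) hcomm v hv hae
  refine ⟨W, inferInstance, inferInstance, ρ, hWfin, hWnt, ?_, ?_, ?_⟩
  · obtain ⟨L, hLfin, hLfix⟩ := hL N p hp hfin
    exact ⟨L, hLfin, fun σ hσ => hone σ (hLfix σ hσ)⟩
  · intro ℓ hℓ hℓNp A hA σ hσ
    exact hone σ (hunr ℓ hℓ hℓNp A hA σ hσ)
  · intro ℓ hℓ hℓNp A hA σ hσ
    refine ⟨a ⟨ℓ, hℓ, hℓNp⟩, ha ⟨ℓ, hℓ, hℓNp⟩, ?_⟩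
    have := hquad σ ⟨ℓ, hℓ, hℓNp⟩ (ℓ : ZMod p) (D.eichlerShimura ℓ hℓ hℓNp A hA σ hσ)
    rwa [map_natCast] at this

/-- **ES-G6 (row 367).** -/
theorem eichlerShimuraSpace_of_torsion
    (hT : Fermat.Agent.H22.ES.EichlerShimuraTorsionStatement)
    (hL : TorsionLevelAllStatement) : EichlerShimuraSpaceStatement :=
  eichlerShimuraSpace_of_torsion_core hT (torsionLevelPrime_of_all hL)

end Fermat.Agent.H28
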