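import Mathlib
import Fermat.Agent.H28.ES.S29Space
import Fermat.Agent.H28.ES.TorsionGlue

/-!
# P-ES / ES-G : S29 from the torsion package of the architecture (helper28)

`s29_of_torsion` : S29 (frozen shape) from
`Fermat.Agent.H22.ES.EichlerShimuraTorsionStatement` and the finite-level statement
`TorsionLevelAllStatement` (= `∀ N, Fermat.Agent.H14.TorsionLevelStatement N`).
-/

set_option autoImplicit false

namespace Fermat.Agent.H28

/-- **S29 from the torsion package.** -/
theorem s29_of_torsion
    (hT : Fermat.Agent.H22.ES.EichlerShimuraTorsionStatement)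
    (hL : TorsionLevelAllStatement)
    {N : ℕ} {g : CuspForm (CongruenceSubgroup.Gamma0 N) 2} (hg : g.IsNormalizedEigenform)
    {p : ℕ} (hp : p.Prime) {k : Type} [Field k] [CharP k p]
    (φ : integralClosure ℤ ℂ →+* k) :
    ∃ ρ : ResidualGaloisRep k, ρ.IsAttachedTo g φ ∧
      ∀ ℓ : ℕ, ℓ.Prime → ¬ ℓ ∣ N * p → ρ.IsUnramifiedAt ℓ :=
  s29_of_space (eichlerShimuraSpace_of_torsion hT hL) hg hp φ

end Fermat.Agent.H28
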