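import Mathlib
import Fermat.Agent.H28.ES.S29Space
import Fermat.Agent.H28.ES.TorsionGlue
import Fermat.Agent.H36.ESE.TorsionDatum
import Fermat.Agent.H49.ES.GalHecke
import Fermat.Agent.H53.ES.OpenStab

/-!
# P-ES / ES-G : final wiring of S29 (helper28)

`s29_wired` : the frozen statement S29 from exactly THREE `J`-side inputs,

* `hU  : ∀ N, Fermat.Agent.H22.ES.TorsionUnramifiedStatement N`  (row Q-U,   from KL + GNF),
* `hES : ∀ N, Fermat.Agent.H36.EichlerShimuraRelStatement N`     (row Q-ES-4, from KL + GNF +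
  norm congruence),
* `hQ  : Fermat.Agent.H94.QEig.QEigStatement`                    (row Q-EIG).

Everything else is discharged here with landed theorems: Frobenius density
(`Fermat.Agent.H28.frobPowDense`), Galois equivariance of the Hecke operators
(`Fermat.Agent.H49.heckeGaloisTorsionStatement`), finite level
(`Fermat.Agent.H53.jZero_torsion_finiteLevel`), the torsion Hecke datum
(`Fermat.Agent.H36.torsionHeckeDatum`), the pure algebra (`Fermat.Agent.H28.ES.EigenRep`,
`Fermat.Agent.H28.ES.S29Final`).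
-/

set_option autoImplicit false

namespace Fermat.Agent.H28

open ModularCurve AlgebraicCurve

/-- Finite level at primes, unconditional (helper53). -/
theorem torsionLevelPrimeStatement : TorsionLevelPrimeStatement := by
  intro N _ p _ hfin
  exact Fermat.Agent.H53.jZero_torsion_finiteLevel N p

/-- The torsion package of the architecture from its three open inputs. -/
theorem eichlerShimuraTorsion_of_parts
    (hU : ∀ (N : ℕ) [NeZero N], Fermat.Agent.H22.ES.TorsionUnramifiedStatement N)
    (hES : ∀ (N : ℕ) [NeZero N], Fermat.Agent.H36.EichlerShimuraRelStatement N)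
    (hQ : Fermat.Agent.H94.QEig.QEigStatement) :
    Fermat.Agent.H22.ES.EichlerShimuraTorsionStatement := by
  intro N _ p hp
  refine ⟨(hQ N p hp).1, ?_,
    Fermat.Agent.H36.torsionHeckeDatum N p hp.pos
      (Fermat.Agent.H49.heckeGaloisTorsionStatement N) (hES N), ?_⟩
  · intro ℓ hℓ hℓNp A hA σ hσ
    have hℓN : ¬ ℓ ∣ N := fun h => hℓNp (Dvd.dvd.mul_right h p)
    have hℓp : ¬ ℓ ∣ p := fun h => hℓNp (Dvd.dvd.mul_left h N)
    exact torsionGaloisRep_eq_one_of_fix σ
      (fun x hx => hU N ℓ hℓ hℓN p hp.pos hℓp A hA σ hσ x hx)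
  · intro g hg
    exact Fermat.Agent.H94.QEig.occursVec_of_qEig hQ N p hp _
      (fun ℓ hℓ hℓNp => Fermat.Agent.H36.torsionHeckeDatum_T_eq_heckeTors N p hp.pos
        (Fermat.Agent.H49.heckeGaloisTorsionStatement N) (hES N) ℓ hℓ hℓNp) g hg

/-- The Eichler–Shimura space from the three open inputs. -/
theorem eichlerShimuraSpace_wired
    (hU : ∀ (N : ℕ) [NeZero N], Fermat.Agent.H22.ES.TorsionUnramifiedStatement N)
    (hES : ∀ (N : ℕ) [NeZero N], Fermat.Agent.H36.EichlerShimuraRelStatement N)
    (hQ : Fermat.Agent.H94.QEig.QEigStatement) : EichlerShimuraSpaceStatement :=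
  eichlerShimuraSpace_of_torsion_core (eichlerShimuraTorsion_of_parts hU hES hQ)
    torsionLevelPrimeStatement

/-- **S29 (frozen shape) from the three open `J`-side inputs.** -/
theorem s29_wired
    (hU : ∀ (N : ℕ) [NeZero N], Fermat.Agent.H22.ES.TorsionUnramifiedStatement N)
    (hES : ∀ (N : ℕ) [NeZero N], Fermat.Agent.H36.EichlerShimuraRelStatement N)
    (hQ : Fermat.Agent.H94.QEig.QEigStatement)
    {N : ℕ} {g : CuspForm (CongruenceSubgroup.Gamma0 N) 2} (hg : g.IsNormalizedEigenform)
    {p : ℕ} (hp : p.Prime) {k : Type} [Field k] [CharP k p]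
    (φ : integralClosure ℤ ℂ →+* k) :
    ∃ ρ : ResidualGaloisRep k, ρ.IsAttachedTo g φ ∧
      ∀ ℓ : ℕ, ℓ.Prime → ¬ ℓ ∣ N * p → ρ.IsUnramifiedAt ℓ :=
  s29_of_space (eichlerShimuraSpace_wired hU hES hQ) hg hp φ

end Fermat.Agent.H28
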