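import Mathlib
import Fermat.Agent.H28.ES.S29Wiring
import Fermat.Agent.H79.TorsionUnramified
import Fermat.Agent.H66.ESD.GaussNorm
import Fermat.Agent.H65.QES.NormSeries
import Fermat.Agent.H89.QES2
import Fermat.Agent.H49.ES.EsCAdapters

/-!
# P-ES / ES-G : S29 from the KEY LEMMA and Q-EIG (helper28)

`s29_of_keyLemma` : the frozen statement S29 from exactly TWO open inputs,

* `hKL : Fermat.Agent.H22.ES.KeyLemmaAllStatement`  (rows KL-*),
* `hQ  : Fermat.Agent.H94.QEig.QEigStatement`       (row Q-EIG).

Discharged here with landed theorems: Gauss normal form (helper66), norm series / norm congruence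
(helper65, helper89), Hecke inputs (helper49), (U) (helper79), the Eichler–Shimura relation on
torsion (helper36), Galois equivariance (helper49), finite level (helper53), Frobenius density
(helper3), the algebra (helper28, helper64, helper68, helper88, helper65, helper53).
-/

set_option autoImplicit false

namespace Fermat.Agent.H28

/-- (U) from the key lemma. -/
theorem torsionUnramified_of_kl (hKL : Fermat.Agent.H22.ES.KeyLemmaAllStatement)
    (N : ℕ) [NeZero N] : Fermat.Agent.H22.ES.TorsionUnramifiedStatement N :=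
  Fermat.Agent.H79.torsionUnramified hKL (fun N _ => Fermat.Agent.H66.gaussNormalForm N) N

/-- The Eichler–Shimura relation on torsion from the key lemma. -/
theorem eichlerShimuraRel_of_kl (hKL : Fermat.Agent.H22.ES.KeyLemmaAllStatement)
    (N : ℕ) [NeZero N] : Fermat.Agent.H36.EichlerShimuraRelStatement N :=
  Fermat.Agent.H36.eichlerShimuraRel_of_keyLemma N (fun ℓ hℓ hℓN => hKL N ℓ hℓ hℓN)
    (Fermat.Agent.H66.gaussNormalForm N)
    (Fermat.Agent.H89.normCongruence_of_normSeries N (Fermat.Agent.H65.normSeriesStatement N))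
    (fun ℓ _ hℓ _ => Fermat.Agent.H49.heckeInputsAlong_qbar N ℓ hℓ)

/-- **S29 (frozen shape) from the key lemma and Q-EIG.** -/
theorem s29_of_keyLemma (hKL : Fermat.Agent.H22.ES.KeyLemmaAllStatement)
    (hQ : Fermat.Agent.H94.QEig.QEigStatement)
    {N : ℕ} {g : CuspForm (CongruenceSubgroup.Gamma0 N) 2} (hg : g.IsNormalizedEigenform)
    {p : ℕ} (hp : p.Prime) {k : Type} [Field k] [CharP k p]
    (φ : integralClosure ℤ ℂ →+* k) :
    ∃ ρ : ResidualGaloisRep k, ρ.IsAttachedTo g φ ∧
      ∀ ℓ : ℕ, ℓ.Prime → ¬ ℓ ∣ N * p → ρ.IsUnramifiedAt ℓ :=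
  s29_wired (fun N _ => torsionUnramified_of_kl hKL N) (fun N _ => eichlerShimuraRel_of_kl hKL N)
    hQ hg hp φ

end Fermat.Agent.H28
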