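import Mathlib
import Fermat.Agent.H28.ES.S29KL
import Fermat.Agent.H94.QEig.Unconditional
import Fermat.Agent.H89.ESG5

/-!
# P-ES / ES-G : S29 and S42 from the KEY LEMMA alone (helper28)

* `s29_of_kl : KeyLemmaAllStatement → <frozen statement S29>`
* `s42_of_kl : KeyLemmaAllStatement → <frozen statement S42>`

The eigenvector input `QEigStatement` is unconditional (`Fermat.Agent.H94.QEig.qEig`).
So `Fermat/Agent/S29.lean` is `exact Fermat.Agent.H28.s29_of_kl <proof of KL> hg hp φ` and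
`Fermat/Agent/S42.lean` is `exact Fermat.Agent.H28.s42_of_kl <proof of KL> P`.
-/

set_option autoImplicit false

namespace Fermat.Agent.H28

/-- **S29 (frozen shape) from the key lemma.** -/
theorem s29_of_kl (hKL : Fermat.Agent.H22.ES.KeyLemmaAllStatement)
    {N : ℕ} {g : CuspForm (CongruenceSubgroup.Gamma0 N) 2} (hg : g.IsNormalizedEigenform)
    {p : ℕ} (hp : p.Prime) {k : Type} [Field k] [CharP k p]
    (φ : integralClosure ℤ ℂ →+* k) :
    ∃ ρ : ResidualGaloisRep k, ρ.IsAttachedTo g φ ∧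
      ∀ ℓ : ℕ, ℓ.Prime → ¬ ℓ ∣ N * p → ρ.IsUnramifiedAt ℓ :=
  s29_of_keyLemma hKL Fermat.Agent.H94.QEig.qEig hg hp φ

/-- **S42 (frozen shape) from the key lemma.** -/
theorem s42_of_kl (hKL : Fermat.Agent.H22.ES.KeyLemmaAllStatement) (P : FreyPackage) :
    ∀ M : ℕ, 0 < M → P.EigenformResidualAttachmentAt M :=
  Fermat.Agent.H89.eigenformResidualAttachment_of_s29
    (fun hg _ hp _ _ _ φ => s29_of_kl hKL hg hp φ) P

end Fermat.Agent.H28
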